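import Fermat.Agent.S35
import Fermat.Agent.S22
import Fermat.Agent.S29_reduction
import Fermat.Agent.RT.NTheta
import Fermat.Agent.Ribet.Forms
import Fermat.Agent.Oldforms.Basic

/-!
# Removing an auxiliary prime at which level raising is impossible

If `W` is residually modular of level `m r`, `r ∤ m` a prime of good reduction for `W` with
`a_r(W)² ≢ (r + 1)² (mod p)`, then `W` is residually modular of level `m`: the newform attached to
the form of level `m r` cannot have level divisible by `r`, since otherwise the trace of Frobenius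
at `r` would be `± (r + 1)` (S35).
-/

set_option autoImplicit false
set_option linter.style.haveILetI false

noncomputable section

namespace Fermat.Agent.Ext.Low

open Polynomial IsLocalRing CongruenceSubgroup
open WeierstrassCurve WeierstrassCurve.Affine WeierstrassCurve.Affine.Point
open Fermat.Agent Fermat.Agent.ECFrob Fermat.Agent.Torsion Fermat.Agent.ECRed Fermat.Agent.Ribet
open Fermat.Agent.S29aux

/-- The residual representation of a newform `g`, with the Frobenius elements at the primes which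
divide the level exactly once. -/
theorem exists_residual_newform {N : ℕ} [NeZero N] {g : CuspForm (Gamma0 N) 2} (hg : g.IsNewform)
    {p : ℕ} (hp : p.Prime) {K : Type} [Field K] [IsAlgClosed K] [CharP K p]
    (φ : integralClosure ℤ ℂ →+* K) :
    ∃ ρ : ResidualGaloisRep K, ρ.IsAttachedTo g φ ∧
      ∀ q : ℕ, q.Prime → q ≠ p → q ∣ N → ¬ q ^ 2 ∣ N →
        ∀ A : ValuationSubring (AlgebraicClosure ℚ), A.LiesOverPrime q →
          ∀ σ : AlgebraicClosure ℚ ≃ₐ[ℚ] AlgebraicClosure ℚ, A.IsFrobeniusAt σ q →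
            LinearMap.trace K ρ.V (ρ.ρ σ) ^ 2 = ((q : K) + 1) ^ 2 := by
  haveI : Fact p.Prime := ⟨hp⟩
  have hg1 : g.IsNormalizedEigenform := hg.1
  set S : Finset ℕ := insert p N.primeFactors with hS
  haveI := Fermat.Agent.S22.result N 2 (↑S : Set ℕ)
  set χ := eigenChar hg1 (↑S : Set ℕ) with hχ
  haveI := heckeField_numberField χ
  obtain ⟨O, _, _, _, _, _, _, j, ι, hpO, hι⟩ := exists_completeDVR (heckeField χ) hp
    (φ.comp (intEmb (heckeField χ)))
  have hpS : p ∈ S := Finset.mem_insert_self _ _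
  have hNS : ∀ q : ℕ, q.Prime → q ∣ N → q ∈ S := fun q hq hqN =>
    Finset.mem_insert_of_mem (Nat.mem_primeFactors.mpr ⟨hq, hqN, NeZero.ne N⟩)
  -- the section
  let e : NumberField.RingOfIntegers (heckeField χ) →+* ℂ :=
    (algebraMap (heckeField χ) ℂ).comp
      (algebraMap (NumberField.RingOfIntegers (heckeField χ)) (heckeField χ))
  have he : Function.Injective e :=
    (algebraMap (heckeField χ) ℂ).injective.comp NumberField.RingOfIntegers.coe_injective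
  have hrange : ∀ a ∈ χ.range, a ∈ e.range := by
    rintro _ ⟨t, rfl⟩
    exact ⟨charInt χ t, coe_charInt χ t⟩
  obtain ⟨s, hs⟩ := RT.exists_section e he χ.range hrange
  have hst : ∀ t, s (χ.rangeRestrict t) = charInt χ t := by
    intro t
    apply he
    rw [hs]
    exact (coe_charInt χ t).symm
  obtain ⟨O'', _, _, _, _, _, _, _, _, _, hinj, ρ, hchar, hnew⟩ :=
    S35.result hg p S O hpO χ (fun ℓ hℓ hℓM hℓS => by rw [hχ, eigenChar_T]) (j.comp s) hpS hNS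
  obtain ⟨ι'', hι''⟩ := exists_residueField_hom (O'' := O'') ι
  refine ⟨ρ.residual.baseChangeAlong ι'', ?_, ?_⟩
  · intro ℓ hℓ hℓN hℓk A hA σ hσ
    have hℓp : ℓ ≠ p := by
      rintro rfl
      exact hℓk (CharP.cast_eq_zero K ℓ)
    have hℓS : ℓ ∉ (↑S : Set ℕ) := by
      intro h
      rcases Finset.mem_insert.mp (Finset.mem_coe.mp h) with h | h
      · exact hℓp h
      · exact hℓN (Nat.dvd_of_mem_primeFactors h)
    have hc := hchar ℓ hℓ hℓN hℓS A hA σ hσ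
    refine ⟨intEmb (heckeField χ) (charInt χ (CuspForm.heckeAlgebra.T hℓ hℓN hℓS)), ?_, ?_⟩
    · rw [coe_intEmb, coe_charInt, hχ, eigenChar_T]
    · rw [charpoly_baseChangeAlong, charpoly_residual, hc]
      simp only [Polynomial.map_add, Polynomial.map_sub, Polynomial.map_mul, Polynomial.map_pow,
        Polynomial.map_X, Polynomial.map_C, map_natCast, Polynomial.map_natCast]
      rw [RingHom.comp_apply, RingHom.comp_apply, hst, hι'', hι, RingHom.comp_apply]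
  · intro q hq hqp hqN hq2 A hA σ hσ
    have hc := hnew q hq hqp hqN hq2 A hA σ hσ
    have h1 : LinearMap.charpoly ((ρ.residual.baseChangeAlong ι'').ρ σ) =
        ((LinearMap.charpoly (ρ.ρ σ)).map (residue O'')).map ι'' := by
      rw [charpoly_baseChangeAlong, charpoly_residual]
    rcases hc with hc | hc
    · rw [hc] at h1
      have h2 : LinearMap.charpoly ((ρ.residual.baseChangeAlong ι'').ρ σ) =
          X ^ 2 - C ((q : K) + 1) * X + C (q : K) := by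
        rw [h1]
        simp
      rw [(trace_det_of_charpoly' (ρ.residual.baseChangeAlong ι'').finrank_eq _ _ _ h2).1]
    · rw [hc] at h1
      have h2 : LinearMap.charpoly ((ρ.residual.baseChangeAlong ι'').ρ σ) =
          X ^ 2 - C (-((q : K) + 1)) * X + C (q : K) := by
        rw [h1]
        simp
        ring
      rw [(trace_det_of_charpoly' (ρ.residual.baseChangeAlong ι'').finrank_eq _ _ _ h2).1]
      ring

section Trace

variable {W : WeierstrassCurve ℤ} {p : ℕ} [hp : Fact p.Prime]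

open ModularFormClass in
/-- If a representation is attached to `g` and the coefficients of `g` agree with those of `W`
outside a finite set, its traces are those of the representation on the `p`-torsion of `W`. -/
theorem trace_eq_of_attached {N : ℕ} (hN : N ≠ 0) {g : CuspForm (Gamma0 N) 2}
    (hΔ : W.Δ ≠ 0) {k : Type} [Field k] [CharP k p]
    (φ : integralClosure ℤ ℂ →+* k) (ρ : ResidualGaloisRep k) (hρ : ρ.IsAttachedTo g φ)
    {S : Set ℕ} (hS : S.Finite)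
    (hcong : ∀ ℓ : ℕ, ℓ.Prime → ℓ ∉ S → W.IsGoodPrimeFor ℓ → ∀ x : integralClosure ℤ ℂ,
      (x : ℂ) = qCoeff g ℓ → φ x = ((W.apOfModel ℓ : ℤ) : k))
    (σ : AlgebraicClosure ℚ ≃ₐ[ℚ] AlgebraicClosure ℚ) :
    LinearMap.trace k ρ.V (ρ.ρ σ) =
      ZMod.castHom (dvd_refl p) k (LinearMap.trace (ZMod p) _ (rho W p σ)) := by
  have hcast : ∀ q : ℕ, q.Prime → q ≠ p → ((q : ℕ) : k) ≠ 0 := by
    intro q hq hqp h0
    rw [CharP.cast_eq_zero_iff k p] at h0
    exact hqp ((Nat.prime_dvd_prime_iff_eq hp.out hq).mp h0).symm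
  obtain ⟨L₁, hL₁, h₁⟩ := galoisRep_factors (map_Δ_ne_zero hΔ) hp.out.ne_zero
  obtain ⟨L₂, hL₂, h₂⟩ := ρ.factorsThroughFiniteLevel
  haveI := hL₁
  haveI := hL₂
  haveI : FiniteDimensional ℚ (L₁ ⊔ L₂ : IntermediateField ℚ _) :=
    IntermediateField.finiteDimensional_sup _ _
  have hfact : ∀ {M : Type} [Monoid M] (r : (AlgebraicClosure ℚ ≃ₐ[ℚ] AlgebraicClosure ℚ) →* M)
      (L : IntermediateField ℚ (AlgebraicClosure ℚ)), L ≤ L₁ ⊔ L₂ →
      (∀ σ : AlgebraicClosure ℚ ≃ₐ[ℚ] AlgebraicClosure ℚ, (∀ x ∈ L, σ x = x) → r σ = 1) →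
      ∀ σ τ : AlgebraicClosure ℚ ≃ₐ[ℚ] AlgebraicClosure ℚ,
      (∀ x ∈ (L₁ ⊔ L₂ : IntermediateField ℚ _), σ x = τ x) → r σ = r τ := by
    intro M _ r L hle hr σ τ h
    have h2 : r (τ⁻¹ * σ) = 1 := by
      apply hr
      intro x hx
      show τ.symm (σ x) = x
      rw [h x (hle hx), τ.symm_apply_apply]
    rw [_root_.map_mul] at h2
    have h4 : r τ * r τ⁻¹ = 1 := by
      rw [← _root_.map_mul, mul_inv_cancel, _root_.map_one]
    calc r σ = (r τ * r τ⁻¹) * r σ := by rw [h4, one_mul]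
      _ = r τ := by rw [mul_assoc, h2, mul_one]
  have hS' : (S ∪ {p} ∪ {q | q ∣ N} ∪ {q | (q : ℤ) ∣ W.Δ} : Set ℕ).Finite := by
    refine Set.Finite.union (Set.Finite.union (hS.union (Set.finite_singleton p)) ?_) ?_
    · refine (Finset.finite_toSet (N.divisors)).subset fun ℓ hℓ => ?_
      rw [Finset.mem_coe, Nat.mem_divisors]
      exact ⟨hℓ, hN⟩
    · refine (Finset.finite_toSet (W.Δ.natAbs.divisors)).subset fun ℓ hℓ => ?_
      rw [Finset.mem_coe, Nat.mem_divisors]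
      exact ⟨Int.natCast_dvd.mp hℓ, Int.natAbs_ne_zero.mpr hΔ⟩
  obtain ⟨q, hq, hqS, B, hB, ψ, hψ, m, m', hm, hm'⟩ :=
    FrobDensity.exists_frobenius_on (L₁ ⊔ L₂) σ _ hS'
  simp only [Set.mem_union, Set.mem_ofPred_eq, Set.mem_singleton_iff, not_or] at hqS
  obtain ⟨⟨⟨hq1, hq2⟩, hq3⟩, hq4⟩ := hqS
  haveI : Fact q.Prime := ⟨hq⟩
  have e1 : rho W p σ = (rho W p ψ) ^ m' := by
    rw [← map_pow]
    exact hfact (rho W p) L₁ le_sup_left (fun τ hτ => h₁ τ hτ) _ _ hm'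
  have e2 : ρ.ρ σ = (ρ.ρ ψ) ^ m' := by
    rw [← map_pow]
    exact hfact ρ.ρ L₂ le_sup_right h₂ _ _ hm'
  obtain ⟨y, hy, hy'⟩ := hρ q hq hq3 (hcast q hq hq2) B hB ψ hψ
  obtain ⟨ty, dy⟩ := trace_det_of_charpoly' ρ.finrank_eq _ _ _ hy'
  have hyW := hcong q hq hq1 hq4 y hy
  rw [e1, e2, trace_pow_eq_lucas ρ.finrank_eq, ty, dy, hyW, trace_pow_eq_lucas (finrank_rat hΔ),
    trace_rho_frobenius hq4 hB hψ hq2, det_rho_frobenius hq4 hB hψ hq2, map_lucas, map_intCast,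
    map_natCast]

open ModularFormClass in
/-- **A newform congruent to `W` is not new at the primes where level raising is impossible.** -/
theorem not_dvd_level {N : ℕ} (hN : N ≠ 0) {g : CuspForm (Gamma0 N) 2} (hg : g.IsNewform)
    (hΔ : W.Δ ≠ 0) (𝔪 : Ideal (integralClosure ℤ ℂ)) (h𝔪 : 𝔪.IsMaximal)
    (hp𝔪 : (p : integralClosure ℤ ℂ) ∈ 𝔪) {S : Set ℕ} (hS : S.Finite)
    (hcong : ∀ ℓ : ℕ, ℓ.Prime → ℓ ∉ S → W.IsGoodPrimeFor ℓ → ∃ b : integralClosure ℤ ℂ,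
      (b : ℂ) = qCoeff g ℓ ∧ b - ((W.apOfModel ℓ : ℤ) : integralClosure ℤ ℂ) ∈ 𝔪)
    {r : ℕ} (hr : r.Prime) (hrp : r ≠ p) (hgood : W.IsGoodPrimeFor r) (hr2 : ¬ r ^ 2 ∣ N)
    (hnr : ¬ (p : ℤ) ∣ W.apOfModel r ^ 2 - ((r : ℤ) + 1) ^ 2) : ¬ r ∣ N := by
  intro hrN
  haveI : NeZero N := ⟨hN⟩
  haveI : Fact r.Prime := ⟨hr⟩
  letI instF : Field (integralClosure ℤ ℂ ⧸ 𝔪) := Ideal.Quotient.field 𝔪
  haveI : IsAlgClosed (integralClosure ℤ ℂ ⧸ 𝔪) := isAlgClosed_quotient 𝔪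
  let φ : integralClosure ℤ ℂ →+* (integralClosure ℤ ℂ ⧸ 𝔪) := Ideal.Quotient.mk 𝔪
  haveI hchar : CharP (integralClosure ℤ ℂ ⧸ 𝔪) p := by
    rw [CharP.charP_iff_prime_eq_zero hp.out]
    have h1 : φ (p : integralClosure ℤ ℂ) = 0 := Ideal.Quotient.eq_zero_iff_mem.mpr hp𝔪
    rw [map_natCast] at h1
    exact h1
  obtain ⟨ρ, hρ, hρr⟩ := exists_residual_newform hg hp.out φ
  obtain ⟨A, hA, σ, hσ⟩ := Frob.exists_frobenius r hr
  have h1 := hρr r hr hrp hrN hr2 A hA σ hσ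
  have h2 := trace_eq_of_attached hN hΔ φ ρ hρ hS (by
    intro q hq hqS hqW x hx
    obtain ⟨b, hb, hb'⟩ := hcong q hq hqS hqW
    have h1 : x = b := Subtype.ext (hx.trans hb.symm)
    rw [h1, ← sub_eq_zero, ← map_intCast φ, ← map_sub]
    exact Ideal.Quotient.eq_zero_iff_mem.mpr hb') σ
  rw [trace_rho_frobenius hgood hA hσ hrp, map_intCast] at h2
  rw [h2] at h1
  apply hnr
  rw [← CharP.intCast_eq_zero_iff (integralClosure ℤ ℂ ⧸ 𝔪) p]
  push_cast
  rw [h1, sub_self]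

/-- **Removing an auxiliary prime.** -/
theorem remove_aux (hΔ : W.Δ ≠ 0) {m r : ℕ} (hm : 0 < m) (hr : r.Prime) (hrp : r ≠ p)
    (hrm : ¬ r ∣ m) (hgood : W.IsGoodPrimeFor r)
    (hnr : ¬ (p : ℤ) ∣ W.apOfModel r ^ 2 - ((r : ℤ) + 1) ^ 2)
    (h : W.IsResiduallyModularOfLevel p (m * r)) : W.IsResiduallyModularOfLevel p m := by
  obtain ⟨f, 𝔪, hf, h𝔪, hp𝔪, hcong⟩ := h
  have hmr : 0 < m * r := Nat.mul_pos hm hr.pos
  obtain ⟨M, hMN, hM0, g, hg, hgf⟩ := Oldforms.exists_newform hmr f hf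
  have hfin : ({p} ∪ {q | q ∣ m * r} : Set ℕ).Finite := by
    refine (Set.finite_singleton p).union ?_
    refine (Finset.finite_toSet ((m * r).divisors)).subset fun ℓ hℓ => ?_
    rw [Finset.mem_coe, Nat.mem_divisors]
    exact ⟨hℓ, hmr.ne'⟩
  have hcong' : ∀ ℓ : ℕ, ℓ.Prime → ℓ ∉ ({p} ∪ {q | q ∣ m * r} : Set ℕ) → W.IsGoodPrimeFor ℓ →
      ∃ b : integralClosure ℤ ℂ, (b : ℂ) = ModularFormClass.qCoeff g ℓ ∧
        b - ((W.apOfModel ℓ : ℤ) : integralClosure ℤ ℂ) ∈ 𝔪 := by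
    intro ℓ hℓ hℓS hℓW
    simp only [Set.mem_union, Set.mem_singleton_iff, Set.mem_ofPred_eq, not_or] at hℓS
    obtain ⟨a, ha, ha'⟩ := hcong ℓ hℓ hℓW hℓS.2 hℓS.1
    exact ⟨a, by rw [ha, hgf ℓ hℓ hℓS.2], ha'⟩
  have hr2 : ¬ r ^ 2 ∣ M := by
    intro h2
    have h3 : r * r ∣ r * m := by
      rw [← pow_two, mul_comm r m]
      exact h2.trans hMN
    exact hrm (Nat.dvd_of_mul_dvd_mul_left hr.pos h3)
  have hrM : ¬ r ∣ M := not_dvd_level hM0.ne' hg hΔ 𝔪 h𝔪 hp𝔪 hfin hcong' hr hrp hgood hr2 hnr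
  have hMm : M ∣ m := by
    have hc : Nat.Coprime M r := ((Nat.Prime.coprime_iff_not_dvd hr).mpr hrM).symm
    exact hc.dvd_of_dvd_mul_right hMN
  haveI : NeZero m := ⟨hm.ne'⟩
  obtain ⟨g', hg', hg'g⟩ := Oldforms.exists_eigenform_raise hMm g hg.1
  have hfin2 : (({p} ∪ {q | q ∣ m * r}) ∪ {q | (q : ℤ) ∣ W.Δ} : Set ℕ).Finite := by
    refine hfin.union ?_
    refine (Finset.finite_toSet (W.Δ.natAbs.divisors)).subset fun ℓ hℓ => ?_
    rw [Finset.mem_coe, Nat.mem_divisors]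
    exact ⟨Int.natCast_dvd.mp hℓ, Int.natAbs_ne_zero.mpr hΔ⟩
  refine isResiduallyModularOfLevel_of_cong hm.ne' hg' hΔ 𝔪 h𝔪 hp𝔪 hfin2 fun ℓ hℓ hℓS => ?_
  rw [Set.mem_union, not_or] at hℓS
  have hℓW : W.IsGoodPrimeFor ℓ := fun hd => hℓS.2 hd
  obtain ⟨b, hb, hb'⟩ := hcong' ℓ hℓ hℓS.1 hℓW
  have hℓm : ¬ ℓ ∣ m := fun hd => hℓS.1 (Or.inr (hd.mul_right r))
  exact ⟨b, by rw [hb, hg'g ℓ hℓ (fun h => absurd h hℓm)], hb'⟩

end Trace

end Fermat.Agent.Ext.Low
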