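import Fermat.Agent.Ribet.RepInst
import Fermat.Agent.Ribet.LowerNe
import Fermat.Agent.S59.AuxEx
import Fermat.Agent.Ext.Low.RemoveAux

/-!
# Ribet's level lowering at a prime `q ≠ p`, for all odd primes `p`
-/

set_option autoImplicit false

noncomputable section

namespace Fermat.Agent.Ext.Low

open Fermat.Agent.Ribet Fermat.Agent.S59aux

/-- **Level lowering**, without auxiliary primes in the level. -/
theorem lower {p : ℕ} [hp : Fact p.Prime] (hp2 : p ≠ 2) {W : WeierstrassCurve ℤ}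
    (hΔ : W.Δ ≠ 0) (hW : W.IsSemistableModel) (hirr : W.ModRepIsIrreducible p) {m q : ℕ}
    (hm : Squarefree m) (hq : q.Prime) (hqp : q ≠ p) (hqm : ¬ q ∣ m)
    (hunr : (rbar (map_Δ_ne_zero hΔ) p).IsUnramifiedAt q)
    (hres : W.IsResiduallyModularOfLevel p (m * q)) : W.IsResiduallyModularOfLevel p m := by
  by_cases hp3 : p = 3
  swap
  · exact lower_of lowerMN lowerNe hp2 hΔ hW hirr hm hq hqp hqm (Or.inl hp3) hunr hres
  obtain ⟨r, hrS, hr⟩ := auxExists p (Or.inl hp3) W hΔ hW hirr (insert q m.primeFactors)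
  rw [Finset.mem_insert, not_or, Nat.mem_primeFactors] at hrS
  have hrm : ¬ r ∣ m := fun h => hrS.2 ⟨hr.prime, h, hm.ne_zero⟩
  have hmr : Squarefree (m * r) :=
    (Nat.squarefree_mul ((hr.prime.coprime_iff_not_dvd.mpr hrm).symm)).mpr
      ⟨hm, hr.prime.prime.squarefree⟩
  have hqmr : ¬ q ∣ m * r := by
    intro h
    rcases hq.dvd_mul.mp h with h | h
    · exact hqm h
    · exact hrS.1 ((Nat.prime_dvd_prime_iff_eq hq hr.prime).mp h).symm
  have h1 : W.IsResiduallyModularOfLevel p (m * r * q) :=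
    resMod_raise (Nat.pos_of_ne_zero (mul_ne_zero hmr.ne_zero hq.ne_zero))
      ⟨r, by ring⟩ hres
  have h2 : W.IsResiduallyModularOfLevel p (m * r) :=
    lower_of lowerMN lowerNe hp2 hΔ hW hirr hmr hq hqp hqmr
      (Or.inr ⟨r, hr.prime, dvd_mul_left r m, hr.mod_twelve⟩) hunr h1
  exact remove_aux hΔ (Nat.pos_of_ne_zero hm.ne_zero) hr.prime hr.ne hrm hr.good hr.not_raising h2

end Fermat.Agent.Ext.Low

end
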